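import Fermat.Agent.Lib.BadRed.Bridge.Targets
import Fermat.Agent.MU.Lib.BadRed.AtkinLehner
import Fermat.Agent.Lib.GaussInt.Basic
import Fermat.Agent.F3.Galois.TorsionReduce

section MergeWrap_Lib_BadRed_Bridge_FunTargets -- from Lib/BadRed/Bridge/FunTargets.lean

set_option autoImplicit false

/-!
# Cluster T: the targets in FUNCTION form  (architect helper81)

Definitions only.

* `InertiaPowSq N`  : function form of T1 (`TorsionInertiaUnipotent N`): for `q ∥ N`, `q ∤ n`,
  `τ` in an inertia group over `q` and `f` with `div f = n D`:  `τ²f · f / (τ f)²` is an `n`-th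
  power.  (`Bridge/T1ofPow.lean`: `InertiaPowSq N → TorsionInertiaUnipotent N`.)
* `ToricKeyAt D`    : function form of (E1') "inertia acts trivially on the toric part":
  for `N = Q R`, `Q = q` prime, `w = atkinLehner D`, and `g` with `n ∣ div g` whose reductions for
  the two Gauss valuations `v_∞` and `v_0 = v_∞ ∘ w` are both `1`:  `τ g / g` is an `n`-th power.
  (`Bridge/E1.lean`: `(∀ D, ToricKeyAt D) → InertiaPowSq N`;  the geometric core
  `Nodal/*` + `Mod/*` proves `ToricKeyAt D`.)
-/

noncomputable section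

namespace Fermat.Agent.BadRed

open ModularCurve AlgebraicCurve Fermat.Agent.F3 Fermat.Agent.F3G Fermat.Agent.GaussInt
  Fermat.Agent.AtkinLehner

/-- **function form of (T1)**. -/
def InertiaPowSq (N : ℕ) [NeZero N] : Prop :=
  ∀ (n q : ℕ), q.Prime → q ∣ N → ¬ q ^ 2 ∣ N → ¬ q ∣ n →
    ∀ A : ValuationSubring (AlgebraicClosure ℚ), A.LiesOverPrime q →
      ∀ τ ∈ A.inertiaSubgroupIn ℚ, ∀ (f : FBar N), f ≠ 0 →
        ∀ D : Divisor.degZero (K := AlgebraicClosure ℚ) (F := FBar N),
          (∀ v, (n : ℤ) * (D : Divisor (AlgebraicClosure ℚ) (FBar N)) v = v.ord f) →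
            ∃ u : FBar N, u ^ n * galFun N τ f ^ 2 = galFun N τ (galFun N τ f) * f

/-- **function form of (E1')**: inertia at `q = D.Q` acts trivially on the classes whose Kummer
generator reduces to `1` for both Gauss valuations of `F_{QR}` above `q`. -/
def ToricKeyAt (D : ALData) : Prop :=
  D.Q.Prime → ∀ n : ℕ, ¬ D.Q ∣ n →
    ∀ A : ValuationSubring (AlgebraicClosure ℚ), A.LiesOverPrime D.Q →
      ∀ τ ∈ A.inertiaSubgroupIn ℚ, ∀ g : FBar (D.Q * D.R), g ≠ 0 →
        (∀ P : Place (AlgebraicClosure ℚ) (FBar (D.Q * D.R)), (n : ℤ) ∣ P.ord g) →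
        (g : LaurentSeries (AlgebraicClosure ℚ)) ∈
            gaussSub A (modularFunctionFieldBar (D.Q * D.R)) →
        gaussResFun A (modularFunctionFieldBar (D.Q * D.R))
            (g : LaurentSeries (AlgebraicClosure ℚ)) = 1 →
        ((atkinLehner D g : FBar (D.Q * D.R)) : LaurentSeries (AlgebraicClosure ℚ)) ∈
            gaussSub A (modularFunctionFieldBar (D.Q * D.R)) →
        gaussResFun A (modularFunctionFieldBar (D.Q * D.R))
            ((atkinLehner D g : FBar (D.Q * D.R)) : LaurentSeries (AlgebraicClosure ℚ)) = 1 →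
          ∃ u : FBar (D.Q * D.R), u ^ n * g = galFun (D.Q * D.R) τ g

end Fermat.Agent.BadRed
end
end MergeWrap_Lib_BadRed_Bridge_FunTargets
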