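import Mathlib
import Fermat.Agent.S05.H5.Inertia
import Fermat.Agent.MU.Lib.BadRed.Bridge.FunTargets
import Fermat.Agent.Lib.GaussInt.Galois
import Fermat.Agent.Lib.GaussInt.ValGroup

section MergeWrap_Lib_BadRed_Bridge_E1Val -- from Lib/BadRed/Bridge/E1Val.lean

set_option autoImplicit false

noncomputable section

namespace Fermat.Agent.BadRed

variable {K₀ K : Type*} [Field K₀] [Field K] [Algebra K₀ K]

/-- an algebraic element has a finite orbit under every automorphism. -/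
theorem exists_pow_apply_eq_self_of_isAlgebraic (σ : K ≃ₐ[K₀] K) {c : K}
    (hc : IsAlgebraic K₀ c) : ∃ m : ℕ, 0 < m ∧ (σ ^ m) c = c := by
  classical
  have hint : IsIntegral K₀ c := hc.isIntegral
  have hfin : ((minpoly K₀ c).rootSet K).Finite := Polynomial.rootSet_finite _ _
  have hmem : ∀ i : ℕ, (σ ^ i) c ∈ (minpoly K₀ c).rootSet K := by
    intro i
    rw [Polynomial.mem_rootSet]
    refine ⟨minpoly.ne_zero hint, ?_⟩
    rw [← AlgEquiv.coe_toAlgHom, Polynomial.aeval_algHom_apply, minpoly.aeval, map_zero]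
  obtain ⟨i, j, hij, h⟩ : ∃ i j : ℕ, i ≠ j ∧ (σ ^ i) c = (σ ^ j) c := by
    by_contra hcon
    have hcon : ∀ i j : ℕ, i ≠ j → (σ ^ i) c ≠ (σ ^ j) c := fun i j hij h =>
      hcon ⟨i, j, hij, h⟩
    have hinj : Function.Injective fun i : ℕ =>
        (⟨(σ ^ i) c, hmem i⟩ : (minpoly K₀ c).rootSet K) := by
      intro i j hij
      by_contra hne
      exact hcon i j hne (congrArg Subtype.val hij)
    have hF : Finite ((minpoly K₀ c).rootSet K) := hfin.to_subtype
    exact not_injective_infinite_finite _ hinj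
  wlog hlt : i < j generalizing i j
  · exact this j i hij.symm h.symm (lt_of_le_of_ne (not_lt.mp hlt) hij.symm)
  refine ⟨j - i, Nat.sub_pos_of_lt hlt, ?_⟩
  have e : σ ^ j = σ ^ i * σ ^ (j - i) := by
    rw [← pow_add, Nat.add_sub_cancel' hlt.le]
  rw [e, AlgEquiv.mul_apply] at h
  exact ((σ ^ i).injective h).symm

variable (A : ValuationSubring K)

theorem decomp_pow_mem (σ : K ≃ₐ[K₀] K) (hσ : σ ∈ A.decompositionSubgroup K₀) (i : ℕ) :
    σ ^ i ∈ A.decompositionSubgroup K₀ := Subgroup.pow_mem _ hσ i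

/-- elements of the decomposition group preserve "valuation `< 1`". -/
theorem decomp_valuation_lt_one_iff (σ : K ≃ₐ[K₀] K) (hσ : σ ∈ A.decompositionSubgroup K₀)
    (y : K) : A.valuation (σ y) < 1 ↔ A.valuation y < 1 := by
  rw [← ValuationSubring.mem_nonunits_iff, ← ValuationSubring.mem_nonunits_iff]
  exact S05H5.decomp_apply_mem_nonunits_iff A σ hσ

/-- elements of the decomposition group preserve "valuation `≤ 1`". -/
theorem decomp_valuation_le_one_iff (σ : K ≃ₐ[K₀] K) (hσ : σ ∈ A.decompositionSubgroup K₀)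
    (y : K) : A.valuation (σ y) ≤ 1 ↔ A.valuation y ≤ 1 := by
  rw [ValuationSubring.valuation_le_one_iff, ValuationSubring.valuation_le_one_iff]
  exact S05H5.decomp_apply_mem_iff A σ hσ

/-- the telescoping product `∏_{i<m} σ^i (σ c / c) = σ^m c / c`. -/
theorem prod_pow_apply_div (σ : K ≃ₐ[K₀] K) {c : K} (hc : c ≠ 0) (m : ℕ) :
    ∏ i ∈ Finset.range m, (σ ^ i) (σ c / c) = (σ ^ m) c / c := by
  induction m with
  | zero => simp [hc]
  | succ m ih =>
    rw [Finset.prod_range_succ, ih, map_div₀, pow_succ, AlgEquiv.mul_apply]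
    have h1 : (σ ^ m) c ≠ 0 := (map_ne_zero_iff _ (σ ^ m).injective).mpr hc
    field_simp

/-- **Decomposition groups preserve the valuation** (algebraic extensions): `σ c / c` is a unit
of `A`. -/
theorem decomp_valuation_div_eq_one [Algebra.IsAlgebraic K₀ K] (σ : K ≃ₐ[K₀] K)
    (hσ : σ ∈ A.decompositionSubgroup K₀) {c : K} (hc : c ≠ 0) :
    A.valuation (σ c / c) = 1 := by
  obtain ⟨m, hm, hmc⟩ := exists_pow_apply_eq_self_of_isAlgebraic σ
    (Algebra.IsAlgebraic.isAlgebraic (R := K₀) c)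
  have hprod := prod_pow_apply_div σ hc m
  rw [hmc, div_self hc] at hprod
  have hval : ∏ i ∈ Finset.range m, A.valuation ((σ ^ i) (σ c / c)) = 1 := by
    rw [← map_prod, hprod, map_one]
  have hne : (Finset.range m).Nonempty := Finset.nonempty_range_iff.mpr hm.ne'
  rcases lt_trichotomy (A.valuation (σ c / c)) 1 with h | h | h
  · exfalso
    have hlt : ∏ i ∈ Finset.range m, A.valuation ((σ ^ i) (σ c / c)) <
        ∏ _i ∈ Finset.range m, (1 : ValuationSubring.ValueGroup A) := by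
      refine Finset.prod_lt_prod_of_nonempty ?_ ?_ hne
      · intro i _
        have h0 : (σ ^ i) (σ c / c) ≠ 0 :=
          (map_ne_zero_iff _ (σ ^ i).injective).mpr
            (div_ne_zero ((map_ne_zero_iff _ σ.injective).mpr hc) hc)
        exact zero_lt_iff.mpr ((Valuation.ne_zero_iff _).mpr h0)
      · intro i _
        exact (decomp_valuation_lt_one_iff A (σ ^ i) (decomp_pow_mem A σ hσ i) _).mpr h
    rw [hval, Finset.prod_const_one] at hlt
    exact lt_irrefl _ hlt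
  · exact h
  · exfalso
    have hlt : ∏ _i ∈ Finset.range m, (1 : ValuationSubring.ValueGroup A) <
        ∏ i ∈ Finset.range m, A.valuation ((σ ^ i) (σ c / c)) := by
      refine Finset.prod_lt_prod_of_nonempty ?_ ?_ hne
      · intro i _
        exact zero_lt_one
      · intro i _
        rw [← not_le]
        intro hle
        have := (decomp_valuation_le_one_iff A (σ ^ i) (decomp_pow_mem A σ hσ i) _).mp hle
        exact absurd h (not_lt.mpr this)
    rw [hval, Finset.prod_const_one] at hlt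
    exact lt_irrefl _ hlt

/-- `b ^ n` a unit of `A`, `n ≠ 0` ⟹ `b` a unit of `A`. -/
theorem valuation_eq_one_of_pow {b : K} {n : ℕ} (hn : n ≠ 0) (h : A.valuation (b ^ n) = 1) :
    A.valuation b = 1 := by
  rw [map_pow] at h
  rcases lt_trichotomy (A.valuation b) 1 with h1 | h1 | h1
  · exfalso
    have := pow_lt_one₀ zero_le h1 hn
    rw [h] at this
    exact lt_irrefl _ this
  · exact h1
  · exfalso
    have := one_lt_pow₀ h1 hn
    rw [h] at this
    exact lt_irrefl _ this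

end Fermat.Agent.BadRed
end
end MergeWrap_Lib_BadRed_Bridge_E1Val

section MergeWrap_Lib_BadRed_Bridge_E1 -- from Lib/BadRed/Bridge/E1.lean

set_option autoImplicit false

noncomputable section

namespace Fermat.Agent.BadRed

open ModularCurve AlgebraicCurve Fermat.Agent.F3 Fermat.Agent.F3G Fermat.Agent.GaussInt
  Fermat.Agent.AtkinLehner

local notation "Qb" => AlgebraicClosure ℚ

/-- **separating element** for the two Gauss valuations `v_∞`, `v_0 = v_∞ ∘ w_Q` of `F_{QR}` at a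
place over `Q`: `E ≡ 1` for `v_∞` and `E ≡ 0` for `v_0`, `E` integral for both. -/
def GaussSepAt (D : ALData) : Prop :=
  D.Q.Prime → ∀ A : ValuationSubring (AlgebraicClosure ℚ), A.LiesOverPrime D.Q →
    ∃ E : FBar (D.Q * D.R),
      (E : LaurentSeries (AlgebraicClosure ℚ)) ∈
          gaussSub A (modularFunctionFieldBar (D.Q * D.R)) ∧
      gaussResFun A (modularFunctionFieldBar (D.Q * D.R))
          (E : LaurentSeries (AlgebraicClosure ℚ)) = 1 ∧
      ((atkinLehner D E : FBar (D.Q * D.R)) : LaurentSeries (AlgebraicClosure ℚ)) ∈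
          gaussSub A (modularFunctionFieldBar (D.Q * D.R)) ∧
      gaussResFun A (modularFunctionFieldBar (D.Q * D.R))
          ((atkinLehner D E : FBar (D.Q * D.R)) : LaurentSeries (AlgebraicClosure ℚ)) = 0

section Red

variable {N : ℕ} (A : ValuationSubring Qb)

/-- `ψ x` lies in the Gauss ring and has residue `r`. -/
def RedAt (ψ : FBar N ≃ₐ[Qb] FBar N) (x : FBar N)
    (r : LaurentSeries (IsLocalRing.ResidueField A)) : Prop :=
  ((ψ x : FBar N) : LaurentSeries Qb) ∈ gaussSub A (modularFunctionFieldBar N) ∧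
    gaussResFun A (modularFunctionFieldBar N) ((ψ x : FBar N) : LaurentSeries Qb) = r

variable {A} {ψ : FBar N ≃ₐ[Qb] FBar N} {x y : FBar N}
  {r s : LaurentSeries (IsLocalRing.ResidueField A)}

theorem gaussResFun_mul_of_mem {a b : LaurentSeries Qb}
    (ha : a ∈ gaussSub A (modularFunctionFieldBar N))
    (hb : b ∈ gaussSub A (modularFunctionFieldBar N)) :
    gaussResFun A (modularFunctionFieldBar N) (a * b) =
      gaussResFun A (modularFunctionFieldBar N) a *
        gaussResFun A (modularFunctionFieldBar N) b := by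
  have h1 : gaussRes A (modularFunctionFieldBar N) (⟨a, ha⟩ * ⟨b, hb⟩) =
      gaussRes A (modularFunctionFieldBar N) ⟨a, ha⟩ *
        gaussRes A (modularFunctionFieldBar N) ⟨b, hb⟩ := map_mul _ _ _
  exact h1

theorem gaussResFun_add_of_mem {a b : LaurentSeries Qb}
    (ha : a ∈ gaussSub A (modularFunctionFieldBar N))
    (hb : b ∈ gaussSub A (modularFunctionFieldBar N)) :
    gaussResFun A (modularFunctionFieldBar N) (a + b) =
      gaussResFun A (modularFunctionFieldBar N) a +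
        gaussResFun A (modularFunctionFieldBar N) b := by
  have h1 : gaussRes A (modularFunctionFieldBar N) (⟨a, ha⟩ + ⟨b, hb⟩) =
      gaussRes A (modularFunctionFieldBar N) ⟨a, ha⟩ +
        gaussRes A (modularFunctionFieldBar N) ⟨b, hb⟩ := map_add _ _ _
  exact h1

theorem gaussResFun_neg_of_mem {a : LaurentSeries Qb}
    (ha : a ∈ gaussSub A (modularFunctionFieldBar N)) :
    gaussResFun A (modularFunctionFieldBar N) (-a) =
      -gaussResFun A (modularFunctionFieldBar N) a := by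
  have h1 : gaussRes A (modularFunctionFieldBar N) (-⟨a, ha⟩) =
      -gaussRes A (modularFunctionFieldBar N) ⟨a, ha⟩ := map_neg _ _
  exact h1

theorem gaussResFun_one_eq :
    gaussResFun A (modularFunctionFieldBar N) (1 : LaurentSeries Qb) = 1 :=
  map_one (gaussRes A (modularFunctionFieldBar N))

theorem gaussResFun_zero_eq :
    gaussResFun A (modularFunctionFieldBar N) (0 : LaurentSeries Qb) = 0 :=
  map_zero (gaussRes A (modularFunctionFieldBar N))

theorem RedAt.one : RedAt A ψ 1 1 := by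
  have e : ((ψ (1 : FBar N) : FBar N) : LaurentSeries Qb) = 1 := by
    rw [map_one]
    rfl
  refine ⟨?_, ?_⟩
  · rw [e]
    exact (gaussSub A (modularFunctionFieldBar N)).one_mem
  · rw [e]
    exact gaussResFun_one_eq

theorem RedAt.mul (hx : RedAt A ψ x r) (hy : RedAt A ψ y s) : RedAt A ψ (x * y) (r * s) := by
  obtain ⟨hx1, hx2⟩ := hx
  obtain ⟨hy1, hy2⟩ := hy
  have e : ((ψ (x * y) : FBar N) : LaurentSeries Qb) =
      ((ψ x : FBar N) : LaurentSeries Qb) * ((ψ y : FBar N) : LaurentSeries Qb) := by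
    rw [map_mul]
    rfl
  refine ⟨?_, ?_⟩
  · rw [e]
    exact (gaussSub A (modularFunctionFieldBar N)).mul_mem hx1 hy1
  · rw [e, ← hx2, ← hy2]
    exact gaussResFun_mul_of_mem hx1 hy1

theorem RedAt.add (hx : RedAt A ψ x r) (hy : RedAt A ψ y s) : RedAt A ψ (x + y) (r + s) := by
  obtain ⟨hx1, hx2⟩ := hx
  obtain ⟨hy1, hy2⟩ := hy
  have e : ((ψ (x + y) : FBar N) : LaurentSeries Qb) =
      ((ψ x : FBar N) : LaurentSeries Qb) + ((ψ y : FBar N) : LaurentSeries Qb) := by
    rw [map_add]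
    rfl
  refine ⟨?_, ?_⟩
  · rw [e]
    exact (gaussSub A (modularFunctionFieldBar N)).add_mem hx1 hy1
  · rw [e, ← hx2, ← hy2]
    exact gaussResFun_add_of_mem hx1 hy1

theorem RedAt.neg (hx : RedAt A ψ x r) : RedAt A ψ (-x) (-r) := by
  obtain ⟨hx1, hx2⟩ := hx
  have e : ((ψ (-x) : FBar N) : LaurentSeries Qb) = -((ψ x : FBar N) : LaurentSeries Qb) := by
    rw [map_neg]
    rfl
  refine ⟨?_, ?_⟩
  · rw [e]
    exact (gaussSub A (modularFunctionFieldBar N)).neg_mem hx1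
  · rw [e, ← hx2]
    exact gaussResFun_neg_of_mem hx1

theorem RedAt.sub (hx : RedAt A ψ x r) (hy : RedAt A ψ y s) : RedAt A ψ (x - y) (r - s) := by
  rw [sub_eq_add_neg, sub_eq_add_neg]
  exact hx.add hy.neg

theorem RedAt.pow (hx : RedAt A ψ x r) (n : ℕ) : RedAt A ψ (x ^ n) (r ^ n) := by
  induction n with
  | zero =>
    rw [pow_zero, pow_zero]
    exact RedAt.one
  | succ n ih =>
    rw [pow_succ, pow_succ]
    exact ih.mul hx

theorem RedAt.inv (hx : RedAt A ψ x r) (hr : r ≠ 0) : RedAt A ψ x⁻¹ r⁻¹ := by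
  obtain ⟨hx1, hx2⟩ := hx
  have e : (((ψ x⁻¹ : FBar N)) : LaurentSeries Qb) = ((ψ x : FBar N) : LaurentSeries Qb)⁻¹ := by
    rw [map_inv₀]
    rfl
  refine ⟨?_, ?_⟩
  · rw [e]
    exact inv_mem_gaussSub hx1 (by rw [hx2]; exact hr)
  · rw [e, gaussResFun_inv hx1 (by rw [hx2]; exact hr), hx2]

theorem RedAt.div (hx : RedAt A ψ x r) (hy : RedAt A ψ y s) (hs : s ≠ 0) :
    RedAt A ψ (x / y) (r / s) := by
  rw [div_eq_mul_inv, div_eq_mul_inv]
  exact hx.mul (hy.inv hs)

theorem RedAt.ne_zero (hx : RedAt A ψ x r) (hr : r ≠ 0) : x ≠ 0 := by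
  rintro rfl
  obtain ⟨hx1, hx2⟩ := hx
  apply hr
  have e : ((ψ (0 : FBar N) : FBar N) : LaurentSeries Qb) = 0 := by
    rw [map_zero]
    rfl
  rw [← hx2, e]
  exact gaussResFun_zero_eq

theorem RedAt.const {c : Qb} (hc : c ∈ A) :
    RedAt A ψ (algebraMap Qb (FBar N) c)
      (algebraMap (IsLocalRing.ResidueField A) (LaurentSeries (IsLocalRing.ResidueField A))
        (IsLocalRing.residue A ⟨c, hc⟩)) := by
  have e : ((ψ (algebraMap Qb (FBar N) c) : FBar N) : LaurentSeries Qb) =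
      algebraMap Qb (LaurentSeries Qb) c := by
    rw [AlgEquiv.commutes]
    rfl
  refine ⟨?_, ?_⟩
  · rw [e]
    exact algebraMap_mem_gaussSub hc
  · rw [e]
    exact gaussResFun_algebraMap hc

/-- residues of constants which are units of `A` are nonzero. -/
theorem algebraMap_residue_ne_zero {c : Qb} (hc : c ∈ A) (hu : A.valuation c = 1) :
    algebraMap (IsLocalRing.ResidueField A) (LaurentSeries (IsLocalRing.ResidueField A))
        (IsLocalRing.residue A ⟨c, hc⟩) ≠ 0 := by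
  intro h
  have h1 : IsLocalRing.residue A ⟨c, hc⟩ = 0 := by
    have := (algebraMap (IsLocalRing.ResidueField A)
      (LaurentSeries (IsLocalRing.ResidueField A))).injective
    exact this (by rw [h, map_zero])
  rw [IsLocalRing.residue_eq_zero_iff, IsLocalRing.mem_maximalIdeal, mem_nonunits_iff] at h1
  exact h1 ((A.valuation_eq_one_iff ⟨c, hc⟩).mpr hu)

/-- VALUE GROUP for the valuation `v_∞ ∘ ψ`. -/
theorem exists_scale_redAt [NeZero N] {ℓ : ℕ} (hℓ : ℓ.Prime) (hA : A.LiesOverPrime ℓ)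
    (ψ : FBar N ≃ₐ[Qb] FBar N) {f : FBar N} (hf : f ≠ 0) :
    ∃ c : Qb, c ≠ 0 ∧ ∃ r : LaurentSeries (IsLocalRing.ResidueField A), r ≠ 0 ∧
      RedAt A ψ (algebraMap Qb (FBar N) c * f) r := by
  have hψf : ψ f ≠ 0 := (map_ne_zero_iff _ ψ.injective).mpr hf
  obtain ⟨c, hc0, hmem, hres⟩ := valueGroupAt N ℓ hℓ A hA (ψ f) hψf
  have e : ((ψ (algebraMap Qb (FBar N) c * f) : FBar N) : LaurentSeries Qb) =
      algebraMap Qb (LaurentSeries Qb) c * ((ψ f : FBar N) : LaurentSeries Qb) := by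
    rw [map_mul, AlgEquiv.commutes]
    rfl
  refine ⟨c, hc0, _, hres, ?_, ?_⟩
  · rw [e]
    exact hmem
  · rw [e]

/-- INERTIA acts trivially on residues, for every valuation `v_∞ ∘ ψ` with `ψ` Galois
equivariant. -/
theorem RedAt.gal {τ : Qb ≃ₐ[ℚ] Qb} (hτ : τ ∈ A.inertiaSubgroupIn ℚ)
    (hψ : ∀ z : FBar N, ψ (galFun N τ z) = galFun N τ (ψ z))
    (hx : RedAt A ψ x r) : RedAt A ψ (galFun N τ x) r := by
  obtain ⟨hx1, hx2⟩ := hx
  have hstab : ∀ y ∈ modularFunctionFieldBar N,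
      coeffMap ((τ : Qb ≃ₐ[ℚ] Qb) : Qb →+* Qb) y ∈ modularFunctionFieldBar N := fun y hy =>
    coeffMap_mem_laurentBaseChange τ hy
  have e : ((ψ (galFun N τ x) : FBar N) : LaurentSeries Qb) =
      coeffMap ((τ : Qb ≃ₐ[ℚ] Qb) : Qb →+* Qb) ((ψ x : FBar N) : LaurentSeries Qb) := by
    rw [hψ]
    exact coe_arithmeticGalois_smul _ τ (ψ x)
  refine ⟨?_, ?_⟩
  · rw [e]
    exact coeffMap_mem_gaussSub_of_inertia τ hτ hstab hx1
  · rw [e, gaussResFun_inertia τ hτ hstab hx1, hx2]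

end Red

section Core

/-- the final computation. -/
theorem pow_sq_final_alg {F : Type*} [Field F] (u Gf GGf f e Ge : F) (n : ℕ) (hf : f ≠ 0)
    (he : e ≠ 0) (hGe : Ge ≠ 0) (hGf : Gf ≠ 0)
    (hu : u ^ n * (Gf / f / e ^ n) = GGf / Gf / Ge ^ n) :
    (u * Ge / e) ^ n * Gf ^ 2 = GGf * f := by
  have hen : e ^ n ≠ 0 := pow_ne_zero n he
  have hGen : Ge ^ n ≠ 0 := pow_ne_zero n hGe
  rw [div_pow, mul_pow]
  field_simp at hu ⊢
  linear_combination hu

variable (D : ALData)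

/-- the Galois action on functions as a ring automorphism. -/
theorem galFun_eq_ringAut (N : ℕ) (τ : Qb ≃ₐ[ℚ] Qb) (z : FBar N) :
    galFun N τ z = arithmeticRingAut (modularFunctionFieldFull N) τ z := rfl

/-- the Atkin–Lehner involution commutes with the Galois action on functions. -/
theorem atkinLehner_galFun (τ : Qb ≃ₐ[ℚ] Qb) (z : FBar (D.Q * D.R)) :
    atkinLehner D (galFun (D.Q * D.R) τ z) = galFun (D.Q * D.R) τ (atkinLehner D z) :=
  atkinLehner_arithmeticRingAut D τ z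

/-- `P.ord (τ f)` is divisible by `n` if all `P.ord f` are. -/
theorem dvd_ord_galFun {N : ℕ} (τ : Qb ≃ₐ[ℚ] Qb) {n : ℕ} {f : FBar N}
    (hdiv : ∀ P : Place Qb (FBar N), (n : ℤ) ∣ P.ord f) (P : Place Qb (FBar N)) :
    (n : ℤ) ∣ P.ord (galFun N τ f) := by
  have h := SemilinearAut.ord_smul (arithmeticGalois (modularFunctionFieldFull N) τ)
    ((arithmeticGalois (modularFunctionFieldFull N) τ)⁻¹ • P) f
  rw [smul_inv_smul] at h
  show (n : ℤ) ∣ P.ord (arithmeticGalois (modularFunctionFieldFull N) τ • f)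
  rw [h]
  exact hdiv _

/-- ONE valuation `v_∞ ∘ ψ`: `τ f / f` is congruent to the `n`-th power of a constant unit. -/
theorem exists_unit_redAt_galFun_div {N : ℕ} [NeZero N] {ℓ : ℕ} (hℓ : ℓ.Prime)
    {A : ValuationSubring Qb} (hA : A.LiesOverPrime ℓ)
    {τ : Qb ≃ₐ[ℚ] Qb} (hτ : τ ∈ A.inertiaSubgroupIn ℚ) {n : ℕ} (hn : n ≠ 0)
    (ψ : FBar N ≃ₐ[Qb] FBar N) (hψ : ∀ z : FBar N, ψ (galFun N τ z) = galFun N τ (ψ z))
    {f : FBar N} (hf : f ≠ 0) :
    ∃ b : Qb, ∃ _ : b ∈ A, A.valuation b = 1 ∧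
      RedAt A ψ (galFun N τ f / f / algebraMap Qb (FBar N) b ^ n) 1 := by
  have hdec : τ ∈ A.decompositionSubgroup ℚ := S05H5.inertiaIn_mem_decomp A τ hτ
  have halg : Algebra.IsAlgebraic ℚ Qb := AlgebraicClosure.isAlgebraic ℚ
  obtain ⟨c, hc0, r, hr0, hred⟩ := exists_scale_redAt hℓ hA ψ hf
  have h1 : RedAt A ψ
      (galFun N τ (algebraMap Qb (FBar N) c * f) / (algebraMap Qb (FBar N) c * f)) 1 := by
    have := (hred.gal hτ hψ).div hred hr0
    rwa [div_self hr0] at this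
  have hτc0 : τ c ≠ 0 := (map_ne_zero_iff _ τ.injective).mpr hc0
  have hε : A.valuation (c / τ c) = 1 := by
    have h := decomp_valuation_div_eq_one A τ hdec hc0
    have e : c / τ c = (τ c / c)⁻¹ := by rw [inv_div]
    rw [e, map_inv₀, h, inv_one]
  obtain ⟨b, hb⟩ := IsAlgClosed.exists_pow_nat_eq (c / τ c) (Nat.pos_of_ne_zero hn)
  have hbval : A.valuation b = 1 := valuation_eq_one_of_pow A hn (by rw [hb]; exact hε)
  have hbA : b ∈ A := (A.valuation_le_one_iff b).mp hbval.le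
  refine ⟨b, hbA, hbval, ?_⟩
  have hGc : galFun N τ (algebraMap Qb (FBar N) c * f) =
      algebraMap Qb (FBar N) (τ c) * galFun N τ f := by
    rw [galFun_eq_ringAut, galFun_eq_ringAut, map_mul, arithmeticRingAut_algebraMap]
  have hcF : algebraMap Qb (FBar N) c ≠ 0 := (map_ne_zero_iff _ (algebraMap Qb (FBar N)).injective).mpr hc0
  have hτcF : algebraMap Qb (FBar N) (τ c) ≠ 0 :=
    (map_ne_zero_iff _ (algebraMap Qb (FBar N)).injective).mpr hτc0
  have e : galFun N τ f / f / algebraMap Qb (FBar N) b ^ n =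
      galFun N τ (algebraMap Qb (FBar N) c * f) / (algebraMap Qb (FBar N) c * f) := by
    rw [hGc, ← map_pow, hb, map_div₀]
    field_simp
  rw [e]
  exact h1

/-- **the core of (E1)** at a fixed Atkin–Lehner datum. -/
theorem pow_sq_of_toricKeyAt [NeZero (D.Q * D.R)] (hQ : D.Q.Prime) (hsep : GaussSepAt D)
    (hkey : ToricKeyAt D) (n : ℕ) (hn : ¬ D.Q ∣ n) (A : ValuationSubring Qb)
    (hA : A.LiesOverPrime D.Q) (τ : Qb ≃ₐ[ℚ] Qb) (hτ : τ ∈ A.inertiaSubgroupIn ℚ)
    (f : FBar (D.Q * D.R)) (hf : f ≠ 0)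
    (hdiv : ∀ P : Place Qb (FBar (D.Q * D.R)), (n : ℤ) ∣ P.ord f) :
    ∃ u : FBar (D.Q * D.R),
      u ^ n * galFun (D.Q * D.R) τ f ^ 2 =
        galFun (D.Q * D.R) τ (galFun (D.Q * D.R) τ f) * f := by
  have hn0 : n ≠ 0 := by
    rintro rfl
    exact hn (dvd_zero _)
  -- the two valuations
  obtain ⟨b₁, hb₁A, hb₁, hred₁⟩ := exists_unit_redAt_galFun_div hQ hA hτ hn0
    (AlgEquiv.refl : FBar (D.Q * D.R) ≃ₐ[Qb] FBar (D.Q * D.R)) (fun _ => rfl) hf
  obtain ⟨b₂, hb₂A, hb₂, hred₂⟩ := exists_unit_redAt_galFun_div hQ hA hτ hn0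
    (atkinLehner D) (atkinLehner_galFun D τ) hf
  -- the separating element
  obtain ⟨E, hE1, hE2, hE3, hE4⟩ := hsep hQ A hA
  have hE₁ : RedAt A (AlgEquiv.refl : FBar (D.Q * D.R) ≃ₐ[Qb] FBar (D.Q * D.R)) E 1 :=
    ⟨hE1, hE2⟩
  have hE₂ : RedAt A (atkinLehner D) E 0 := ⟨hE3, hE4⟩
  set β₁ := algebraMap (IsLocalRing.ResidueField A) (LaurentSeries (IsLocalRing.ResidueField A))
    (IsLocalRing.residue A ⟨b₁, hb₁A⟩) with hβ₁
  set β₂ := algebraMap (IsLocalRing.ResidueField A) (LaurentSeries (IsLocalRing.ResidueField A))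
    (IsLocalRing.residue A ⟨b₂, hb₂A⟩) with hβ₂
  have hβ₁0 : β₁ ≠ 0 := algebraMap_residue_ne_zero hb₁A hb₁
  have hβ₂0 : β₂ ≠ 0 := algebraMap_residue_ne_zero hb₂A hb₂
  set e : FBar (D.Q * D.R) :=
    algebraMap Qb (FBar (D.Q * D.R)) b₁ * E + algebraMap Qb (FBar (D.Q * D.R)) b₂ * (1 - E)
    with he
  have he₁ : RedAt A (AlgEquiv.refl : FBar (D.Q * D.R) ≃ₐ[Qb] FBar (D.Q * D.R)) e β₁ := by
    have h := ((RedAt.const (ψ := (AlgEquiv.refl : FBar (D.Q * D.R) ≃ₐ[Qb] FBar (D.Q * D.R)))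
      hb₁A).mul hE₁).add ((RedAt.const hb₂A).mul (RedAt.one.sub hE₁))
    rwa [sub_self, mul_zero, add_zero, mul_one] at h
  have he₂ : RedAt A (atkinLehner D) e β₂ := by
    have h := ((RedAt.const (ψ := atkinLehner D) hb₁A).mul hE₂).add
      ((RedAt.const hb₂A).mul (RedAt.one.sub hE₂))
    rwa [sub_zero, mul_zero, zero_add, mul_one] at h
  have he0 : e ≠ 0 := he₁.ne_zero hβ₁0
  -- the normalised function
  set g : FBar (D.Q * D.R) := galFun (D.Q * D.R) τ f / f / e ^ n with hg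
  have hGf0 : galFun (D.Q * D.R) τ f ≠ 0 := by
    rw [galFun_eq_ringAut]
    exact (map_ne_zero_iff _ (arithmeticRingAut _ τ).injective).mpr hf
  have hg0 : g ≠ 0 := div_ne_zero (div_ne_zero hGf0 hf) (pow_ne_zero n he0)
  have hb₁F : algebraMap Qb (FBar (D.Q * D.R)) b₁ ^ n ≠ 0 := by
    refine pow_ne_zero n ((map_ne_zero_iff _ (algebraMap Qb (FBar (D.Q * D.R))).injective).mpr ?_)
    rintro rfl
    rw [map_zero] at hb₁
    exact zero_ne_one hb₁
  have hb₂F : algebraMap Qb (FBar (D.Q * D.R)) b₂ ^ n ≠ 0 := by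
    refine pow_ne_zero n ((map_ne_zero_iff _ (algebraMap Qb (FBar (D.Q * D.R))).injective).mpr ?_)
    rintro rfl
    rw [map_zero] at hb₂
    exact zero_ne_one hb₂
  have hg₁ : RedAt A (AlgEquiv.refl : FBar (D.Q * D.R) ≃ₐ[Qb] FBar (D.Q * D.R)) g 1 := by
    have h := hred₁.mul (((RedAt.const hb₁A).pow n).div (he₁.pow n) (pow_ne_zero n hβ₁0))
    rw [div_self (pow_ne_zero n hβ₁0), mul_one] at h
    have e' : g = galFun (D.Q * D.R) τ f / f / algebraMap Qb (FBar (D.Q * D.R)) b₁ ^ n *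
        (algebraMap Qb (FBar (D.Q * D.R)) b₁ ^ n / e ^ n) := by
      rw [hg]
      field_simp
    rw [e']
    exact h
  have hg₂ : RedAt A (atkinLehner D) g 1 := by
    have h := hred₂.mul (((RedAt.const hb₂A).pow n).div (he₂.pow n) (pow_ne_zero n hβ₂0))
    rw [div_self (pow_ne_zero n hβ₂0), mul_one] at h
    have e' : g = galFun (D.Q * D.R) τ f / f / algebraMap Qb (FBar (D.Q * D.R)) b₂ ^ n *
        (algebraMap Qb (FBar (D.Q * D.R)) b₂ ^ n / e ^ n) := by
      rw [hg]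
      field_simp
    rw [e']
    exact h
  -- divisibility of the divisor
  have hgdiv : ∀ P : Place Qb (FBar (D.Q * D.R)), (n : ℤ) ∣ P.ord g := by
    intro P
    rw [hg, div_eq_mul_inv, div_eq_mul_inv,
      P.ord_mul (mul_ne_zero hGf0 (inv_ne_zero hf)) (inv_ne_zero (pow_ne_zero n he0)),
      P.ord_mul hGf0 (inv_ne_zero hf), P.ord_inv, P.ord_inv, ← zpow_natCast e n, P.ord_zpow]
    exact dvd_sub (dvd_add (dvd_ord_galFun τ hdiv P) ((dvd_neg).mpr (hdiv P)))
      (Dvd.intro _ rfl) |> fun h => by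
        have e' : P.ord (galFun (D.Q * D.R) τ f) + -P.ord f + -((n : ℤ) * P.ord e) =
            P.ord (galFun (D.Q * D.R) τ f) + -P.ord f - (n : ℤ) * P.ord e := by ring
        rw [e']
        exact h
  -- the toric key
  obtain ⟨u, hu⟩ := hkey hQ n hn A hA τ hτ g hg0 hgdiv hg₁.1 hg₁.2 hg₂.1 hg₂.2
  -- conclusion
  have hGe0 : galFun (D.Q * D.R) τ e ≠ 0 := by
    rw [galFun_eq_ringAut]
    exact (map_ne_zero_iff _ (arithmeticRingAut _ τ).injective).mpr he0
  have hGg : galFun (D.Q * D.R) τ g =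
      galFun (D.Q * D.R) τ (galFun (D.Q * D.R) τ f) / galFun (D.Q * D.R) τ f /
        galFun (D.Q * D.R) τ e ^ n := by
    rw [hg]
    simp only [galFun_eq_ringAut, map_div₀, map_pow]
  refine ⟨u * galFun (D.Q * D.R) τ e / e, ?_⟩
  rw [hGg] at hu
  exact pow_sq_final_alg u _ _ f e _ n hf he0 hGe0 hGf0 hu

end Core

/-- **(E1), function form**: the toric key lemma (`ToricKeyAt`, inertia acts trivially on the
classes which reduce to `1` for both Gauss valuations) and the separating elements give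
`InertiaPowSq N`, the function form of `(τ - 1)² = 0` on `J₀(N)[n]`. -/
theorem inertiaPowSq_of_toricKeyAt (N : ℕ) [NeZero N]
    (hsep : ∀ D : ALData, D.Q * D.R = N → GaussSepAt D)
    (hkey : ∀ D : ALData, D.Q * D.R = N → ToricKeyAt D) : InertiaPowSq N := by
  intro n q hq hqN hq2 hqn A hA τ hτ f hf Ddiv hD
  obtain ⟨R, rfl⟩ := hqN
  have hR0 : 0 < R := by
    rcases Nat.eq_zero_or_pos R with h | h
    · exfalso
      subst h
      exact NeZero.ne (q * 0) (mul_zero q)
    · exact h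
  have hcop : Nat.Coprime q R := by
    rw [Nat.Prime.coprime_iff_not_dvd hq]
    rintro ⟨k, rfl⟩
    exact hq2 ⟨k, by ring⟩
  obtain ⟨D, hDQ, hDR⟩ := ALData.exists_of_coprime hq.pos hR0 hcop
  subst hDQ hDR
  exact pow_sq_of_toricKeyAt D hq (hsep D rfl) (hkey D rfl) n hqn A hA τ hτ f hf
    (fun P => ⟨_, (hD P).symm⟩)

end Fermat.Agent.BadRed
end
end MergeWrap_Lib_BadRed_Bridge_E1
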