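import Fermat.Agent.MU.Lib.BadRed.Bridge.LevelCast
import Fermat.Agent.MU.Lib.BadRed.Bridge.NormProd

section MergeWrap_Lib_BadRed_Bridge_NormAt -- from Lib/BadRed/Bridge/NormAt.lean

set_option autoImplicit false
set_option linter.style.haveILetI false
set_option linter.unusedSectionVars false

/-!
# Cluster T / S35: the norm product formula with the Atkin–Lehner involution  (statement: helper36)

`norm_expansion_wAt`: for `q` prime, `q ∤ N₀`, `α : F_{N₀} ⊂ F_{N₀ q}` and the Atkin–Lehner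
involution `w = wAt D hM` at level `N₀ q` (`D.Q = q`, `D.R = N₀`):

    `(Norm_α x)(q^q) = x(q^q) · ∏_{b < q} (w x)(ζ^b q)`     for all `x ∈ F_{N₀ q}`.

Proof (helper7): `norm_product_formula_general` (`Bridge/NormProd.lean`) with
`Ψ := (expansion) ∘ wAt D hM`; `IsALExp N₀ q Ψ` from `atkinLehner_jF` (helper84), `coe_wAt`,
`coe_castF`.
-/

noncomputable section

namespace Fermat.Agent.BadRed

open ModularCurve AlgebraicCurve Fermat.Agent.F3 Fermat.Agent.F3G Fermat.Agent.GaussInt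
  Fermat.Agent.AtkinLehner Fermat.Agent.Kronecker

local notation "Qb" => AlgebraicClosure ℚ

/-- the expansion of the Atkin–Lehner transform, as a ring homomorphism. -/
def wAtExp (D : ALData) {M : ℕ} (hM : M = D.Q * D.R) : FBar M →+* LaurentSeries Qb :=
  (algebraMap (FBar M) (LaurentSeries Qb)).comp ((wAt D hM : FBar M ≃ₐ[Qb] FBar M) : FBar M →+* FBar M)

theorem wAtExp_apply (D : ALData) {M : ℕ} (hM : M = D.Q * D.R) (x : FBar M) :
    wAtExp D hM x = ((wAt D hM x : FBar M) : LaurentSeries Qb) := rfl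

/-- the value of `w` on a generator, at level `M`. -/
theorem coe_wAt_of_coe_gen (D : ALData) {M : ℕ} (hM : M = D.Q * D.R) (d₁ e₁ d₂ f₂ : ℕ)
    [NeZero (d₁ * d₂)] [NeZero (e₁ * d₂)] (h1 : d₁ * e₁ = D.Q) (h2 : d₂ * f₂ = D.R)
    (x : FBar M) (hx : (x : LaurentSeries Qb) = qExpand Qb (d₁ * d₂) (jqModC Qb)) :
    ((wAt D hM x : FBar M) : LaurentSeries Qb) = qExpand Qb (e₁ * d₂) (jqModC Qb) := by
  have hd : d₁ * d₂ ∣ D.Q * D.R := by
    rw [← h1, ← h2]
    exact Nat.mul_dvd_mul (Dvd.intro e₁ rfl) (Dvd.intro f₂ rfl)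
  have hd' : e₁ * d₂ ∣ D.Q * D.R := by
    rw [← h1, ← h2]
    exact Nat.mul_dvd_mul (Dvd.intro_left d₁ rfl) (Dvd.intro f₂ rfl)
  have hc : castF hM x = jF (D.Q * D.R) (d₁ * d₂) hd := by
    apply Subtype.ext
    rw [coe_castF, hx, coe_jF]
  rw [coe_wAt, hc, atkinLehner_jF D d₁ e₁ d₂ f₂ h1 h2 hd hd', coe_jF]

/-- `wAt` has the expansions required by the norm product formula. -/
theorem isALExp_wAt {N₀ q : ℕ} [NeZero N₀] [NeZero q] (D : ALData) (hQ : D.Q = q)
    (hR : D.R = N₀) (hM : N₀ * q = D.Q * D.R) : IsALExp N₀ q (wAtExp D hM) where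
  const c := by
    rw [wAtExp_apply, AlgEquiv.commutes]
    rfl
  low d _ _ hd x hx := by
    obtain ⟨f₂, hf₂⟩ := hd
    haveI : NeZero (1 * d) := ⟨by rw [one_mul]; exact NeZero.ne d⟩
    haveI : NeZero (q * d) := ⟨by rw [mul_comm]; exact NeZero.ne (d * q)⟩
    have h := coe_wAt_of_coe_gen D hM 1 q d f₂ (by rw [one_mul, hQ]) (by rw [hR, hf₂]) x
      (by rw [hx]; exact qExpand_congr (one_mul d).symm _)
    rw [wAtExp_apply, h]
    exact qExpand_congr (mul_comm q d) _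
  high d _ _ hd x hx := by
    obtain ⟨f₂, hf₂⟩ := hd
    haveI : NeZero (1 * d) := ⟨by rw [one_mul]; exact NeZero.ne d⟩
    haveI : NeZero (q * d) := ⟨by rw [mul_comm]; exact NeZero.ne (d * q)⟩
    have h := coe_wAt_of_coe_gen D hM q 1 d f₂ (by rw [mul_one, hQ]) (by rw [hR, hf₂]) x
      (by rw [hx]; exact qExpand_congr (mul_comm d q) _)
    rw [wAtExp_apply, h]
    exact qExpand_congr (one_mul d) _

/-- **the norm product formula for `w_q`.** -/
theorem norm_expansion_wAt {N₀ q : ℕ} [NeZero N₀] [NeZero q] (hq : q.Prime) (hqN : ¬ q ∣ N₀)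
    (D : ALData) (hQ : D.Q = q) (hR : D.R = N₀) (hM : N₀ * q = D.Q * D.R) :
    ∃ ζ : Qbˣ, IsPrimitiveRoot ζ q ∧ ∀ x : FBar (N₀ * q),
      qExpand Qb q ((normAlong (heckeAlphaBar Qb N₀ q) x : FBar N₀) : LaurentSeries Qb) =
        qExpand Qb q (x : LaurentSeries Qb) *
          ∏ i ∈ Finset.range q,
            scaleL (ζ ^ i) ((wAt D hM x : FBar (N₀ * q)) : LaurentSeries Qb) := by
  have hcop : Nat.Coprime q N₀ := (Nat.Prime.coprime_iff_not_dvd hq).mpr hqN
  obtain ⟨ζ, hζ, h⟩ := norm_product_formula_general hq hqN (conjugateExpansions N₀ q hcop)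
  exact ⟨ζ, hζ, fun x => h (wAtExp D hM) (isALExp_wAt D hQ hR hM) x⟩

end Fermat.Agent.BadRed
end
end MergeWrap_Lib_BadRed_Bridge_NormAt
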