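import Mathlib
import Fermat.Agent.MU.Lib.FF.PullJZero
import Fermat.Agent.MU.Lib.BadRed.Bridge.NormAt
import Fermat.Agent.MU.Lib.BadRed.Bridge.AuxNew
import Fermat.Agent.MU.F3.I2.Deg.ALPushAt
import Fermat.Agent.MU.F3.I2.Deg.KappaPush

section MergeWrap_Lib_BadRed_Bridge_PullAux -- from Lib/BadRed/Bridge/PullAux.lean

/-!
# Cluster T / S33: the pull-back `α^* : J₀(N) → J₀(N')` to an auxiliary level  (helper94)

The modular nodal package exists only at the Atkin–Lehner data with `AuxOK`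
(`Q = 2 → 3 ∣ R`, `Q = 3 → 2 ∣ R`).  For torsion of order prime to `ℓ + 1` the norm descent of
`Bridge/AuxLevel.lean` brings statements down from the level `N ℓ`; for `p`-power torsion at
`p = 3` (`ℓ = 2`, `ℓ + 1 = 3`) it does not.  There one pulls the classes BACK to the level `N ℓ`:

* `pullJZero_injective_of_torsion` : `α^*` is injective on torsion (levels `N ∣ r N`, `r = 2, 3`);
* `FF.pullJZero_smul` (helper12) : `α^*` is `G_ℚ`-equivariant;
* `pushAlpha_pullJZero` : `α^*` commutes with the degeneracy push-forward `α_{q,*}` at a prime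
  `q ∤ ℓ` (on torsion classes);
* `pushWAt_pullJZero` : `α^*` commutes with the Atkin–Lehner push-forward `w_{q,*}` (on torsion
  classes).

Hence `α^*` maps the `q`-new torsion classes of level `N₀ q` to `q`-new torsion classes of level
`N₀ ℓ q`, injectively and Galois-equivariantly.
-/

set_option autoImplicit false
set_option linter.unusedSectionVars false
set_option linter.style.haveILetI false

noncomputable section

namespace Fermat.Agent.BadRed.PullAux

open ModularCurve AlgebraicCurve Fermat.Agent.F3 Fermat.Agent.F3G Fermat.Agent.GaussInt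
  Fermat.Agent.AtkinLehner Fermat.Agent.Kronecker Fermat.Agent.F3I2 Fermat.Agent.F3Deg
  Fermat.Agent.F3DegW Fermat.Agent.F3T Fermat.Agent.FF Fermat.Agent.BadRed

local notation "Qb" => AlgebraicClosure ℚ

section General

variable {K F F' : Type*} [Field K] [Field F] [Field F'] [Algebra K F] [Algebra K F']

/-- a divisor of degree `0` is determined by a Kummer generator. -/
theorem eq_of_isRootDiv {n : ℕ} (hn : n ≠ 0) {x : F}
    {D₁ D₂ : Divisor.degZero (K := K) (F := F)} (h₁ : IsRootDiv n x D₁)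
    (h₂ : IsRootDiv n x D₂) : D₁ = D₂ := by
  apply Subtype.ext
  ext v
  have e := (h₁.2 v).trans (h₂.2 v).symm
  have hn' : (n : ℤ) ≠ 0 := by exact_mod_cast hn
  exact mul_left_cancel₀ hn' e

variable [HasPrincipalDivisors K F']
variable (φ : F →ₐ[K] F') (hφ : φ.toRingHom.IsIntegral)
variable (hFI : FundamentalIdentityAlong K φ hφ)

/-- `φ^* ((1/n) div x) = (1/n) div (φ x)`. -/
theorem isRootDiv_pull {n : ℕ} {x : F} {D : Divisor.degZero (K := K) (F := F)}
    (hD : IsRootDiv n x D) : IsRootDiv n (φ x) (degZeroPull φ hφ hFI D) := by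
  refine ⟨(map_ne_zero_iff _ φ.injective).mpr hD.1, fun w => ?_⟩
  rw [coe_degZeroPull, Divisor.pullbackAlong_apply, Place.ord_restrictAlong φ hφ w x, ← hD.2]
  ring

end General

section Roots

/-- the product over the powers of a primitive root of unity does not depend on the root. -/
theorem prod_scaleL_pow_eq {q : ℕ} {ζ ζ' : Qbˣ} (hζ : IsPrimitiveRoot ζ q)
    (hζ' : IsPrimitiveRoot ζ' q) (y : LaurentSeries Qb) :
    ∏ i ∈ Finset.range q, scaleL (ζ ^ i) y = ∏ i ∈ Finset.range q, scaleL (ζ' ^ i) y := by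
  classical
  have hinj : ∀ {ξ : Qbˣ}, IsPrimitiveRoot ξ q →
      Set.InjOn (fun i : ℕ => ξ ^ i) (Finset.range q : Set ℕ) := by
    intro ξ hξ i hi j hj hij
    exact hξ.pow_inj (Finset.mem_range.mp hi) (Finset.mem_range.mp hj) hij
  have himg : (Finset.range q).image (fun i : ℕ => ζ' ^ i) =
      (Finset.range q).image (fun i : ℕ => ζ ^ i) := by
    apply Finset.eq_of_subset_of_card_le
    · intro z hz
      obtain ⟨i, -, rfl⟩ := Finset.mem_image.mp hz
      have h1 : (ζ' ^ i) ^ q = 1 := by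
        rw [← pow_mul, mul_comm, pow_mul, hζ'.pow_eq_one, one_pow]
      rcases Nat.eq_zero_or_pos q with h0 | hpos
      · subst h0
        simp at hz
      haveI : NeZero q := ⟨hpos.ne'⟩
      have hζc : IsPrimitiveRoot (ζ : Qb) q := IsPrimitiveRoot.coe_units_iff.mpr hζ
      have h1c : ((ζ' ^ i : Qbˣ) : Qb) ^ q = 1 := by
        rw [← Units.val_pow_eq_pow_val, h1, Units.val_one]
      obtain ⟨j, hj, hjz⟩ := hζc.eq_pow_of_pow_eq_one h1c
      refine Finset.mem_image.mpr ⟨j, Finset.mem_range.mpr hj, Units.ext ?_⟩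
      rw [Units.val_pow_eq_pow_val]
      exact hjz
    · rw [Finset.card_image_of_injOn (hinj hζ), Finset.card_image_of_injOn (hinj hζ')]
  rw [← Finset.prod_image (s := Finset.range q) (g := fun i : ℕ => ζ ^ i)
      (f := fun z : Qbˣ => scaleL z y) (hinj hζ),
    ← Finset.prod_image (s := Finset.range q) (g := fun i : ℕ => ζ' ^ i)
      (f := fun z : Qbˣ => scaleL z y) (hinj hζ'), himg]

end Roots

section Compat

set_option synthInstance.maxHeartbeats 400000
set_option maxHeartbeats 1000000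

/-- **compatibility of the Atkin–Lehner involutions `w_Q` at the levels `M = Q R` and
`M' = Q R'`, `R ∣ R'`** (on expansions). -/
theorem coe_wAt_inclBar (D D' : ALData) {M M' : ℕ} [NeZero M] [NeZero M']
    (hM : M = D.Q * D.R) (hM' : M' = D'.Q * D'.R) (h : M ∣ M') (hQ : D'.Q = D.Q)
    {c : ℕ} (hR : D'.R = D.R * c) (x : FBar M) :
    ((wAt D' hM' (inclBar h x) : FBar M') : LaurentSeries Qb) =
      ((wAt D hM x : FBar M) : LaurentSeries Qb) := by
  set Φ₁ : FBar M →+* LaurentSeries Qb :=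
    ((modularFunctionFieldBar M').val.toRingHom.comp
      ((wAt D' hM').toAlgHom.toRingHom.comp (inclBar h).toRingHom)) with hΦ₁
  set Φ₂ : FBar M →+* LaurentSeries Qb :=
    ((modularFunctionFieldBar M).val.toRingHom.comp (wAt D hM).toAlgHom.toRingHom) with hΦ₂
  have key : Φ₁ = Φ₂ := by
    refine ringHom_ext_FBar M Φ₁ Φ₂ (fun a => ?_) (fun d hdne hd => ?_)
    · show ((wAt D' hM' (inclBar h (algebraMap Qb (FBar M) a)) : FBar M') :
          LaurentSeries Qb) = ((wAt D hM (algebraMap Qb (FBar M) a) : FBar M) : LaurentSeries Qb)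
      rw [AlgHom.commutes, AlgEquiv.commutes, AlgEquiv.commutes]
      rfl
    · show ((wAt D' hM' (inclBar h (jdBar M d hd)) : FBar M') :
          LaurentSeries Qb) = ((wAt D hM (jdBar M d hd) : FBar M) : LaurentSeries Qb)
      have hd0 : d ∣ D.Q * D.R := hM ▸ hd
      obtain ⟨d₁, e₁, d₂, f₂, h1, h2, rfl⟩ := exists_factor D hd0
      obtain ⟨p1, p2, p3, p4⟩ := factor_pos D h1 h2
      haveI : NeZero (e₁ * d₂) := ⟨(Nat.mul_pos p2 p3).ne'⟩
      have h2' : d₂ * (f₂ * c) = D'.R := by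
        rw [hR, ← h2, mul_assoc]
      have h1' : d₁ * e₁ = D'.Q := by rw [hQ, h1]
      rw [coe_wAt_of_coe_eq D hM _ d₁ e₁ d₂ f₂ h1 h2 (coe_jdBar M _ hd),
        coe_wAt_of_coe_eq D' hM' _ d₁ e₁ d₂ (f₂ * c) h1' h2'
          (by rw [coe_inclBar]; exact coe_jdBar M _ hd)]
  exact congrArg (fun Φ : FBar M →+* LaurentSeries Qb => Φ x) key

variable {N₀ q ℓ : ℕ} [NeZero N₀] [NeZero q] [NeZero ℓ]

/-- **the norm along `α_q` commutes with the inclusion of the levels `N₀ q ⊂ N₀ ℓ q`.** -/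
theorem normAlong_inclBar (hq : q.Prime) (hqN : ¬ q ∣ N₀) (hqℓ : ¬ q ∣ ℓ)
    (h : N₀ * q ∣ N₀ * ℓ * q) (h₀ : N₀ ∣ N₀ * ℓ) (x : FBar (N₀ * q)) :
    normAlong (heckeAlphaBar Qb (N₀ * ℓ) q) (inclBar h x) =
      inclBar h₀ (normAlong (heckeAlphaBar Qb N₀ q) x) := by
  have hN0 : 0 < N₀ := Nat.pos_of_ne_zero (NeZero.ne N₀)
  have hℓ0 : 0 < ℓ := Nat.pos_of_ne_zero (NeZero.ne ℓ)
  have hqN' : ¬ q ∣ N₀ * ℓ := by
    intro hd
    rcases (Nat.Prime.dvd_mul hq).mp hd with hd | hd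
    · exact hqN hd
    · exact hqℓ hd
  have hcop : Nat.Coprime q N₀ := (Nat.Prime.coprime_iff_not_dvd hq).mpr hqN
  have hcop' : Nat.Coprime q (N₀ * ℓ) := (Nat.Prime.coprime_iff_not_dvd hq).mpr hqN'
  obtain ⟨D, hDQ, hDR⟩ := ALData.exists_of_coprime hq.pos hN0 hcop
  obtain ⟨D', hDQ', hDR'⟩ := ALData.exists_of_coprime hq.pos (Nat.mul_pos hN0 hℓ0) hcop'
  have hM : N₀ * q = D.Q * D.R := by rw [hDQ, hDR, mul_comm]
  have hM' : N₀ * ℓ * q = D'.Q * D'.R := by rw [hDQ', hDR', mul_comm]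
  obtain ⟨ζ, hζ, hexp⟩ := norm_expansion_wAt hq hqN D hDQ hDR hM
  obtain ⟨ζ', hζ', hexp'⟩ := norm_expansion_wAt hq hqN' D' hDQ' hDR' hM'
  apply Subtype.ext
  apply qExpand_injective (R := Qb) (N := q)
  rw [hexp' (inclBar h x), coe_inclBar, coe_inclBar, hexp x,
    coe_wAt_inclBar D D' hM hM' h (hDQ'.trans hDQ.symm) (c := ℓ) (by rw [hDR', hDR]) x,
    prod_scaleL_pow_eq hζ' hζ]

end Compat

section Classes

set_option synthInstance.maxHeartbeats 400000
set_option maxHeartbeats 1000000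

/-- **`α^*` is injective on torsion**, for the levels `N ∣ M = r N` with the transfer core
(`F3T.transferCore_two`, `transferCore_three`, ...). -/
theorem pullJZero_injective_of_torsion (N r : ℕ) [NeZero N] [NeZero r] (hc : TransferCore N r)
    {M : ℕ} [NeZero M] (hM : M = r * N) (h : N ∣ M) {n : ℕ} (hn : 0 < n) (x : JZero N)
    (hx : n • x = 0) (h0 : pullJZero h x = 0) : x = 0 := by
  subst hM
  exact pullJZero_eq_zero_of_torsion N r hc n hn x hx h0

/-- `α^*` is injective on torsion for `M = 2 N`. -/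
theorem pullJZero_injective_two (N : ℕ) [NeZero N] {M : ℕ} [NeZero M] (hM : M = 2 * N)
    (h : N ∣ M) {n : ℕ} (hn : 0 < n) (x : JZero N) (hx : n • x = 0)
    (h0 : pullJZero h x = 0) : x = 0 :=
  haveI : NeZero (2 : ℕ) := ⟨by norm_num⟩
  pullJZero_injective_of_torsion N 2 (transferCore_two N) hM h hn x hx h0

/-- `α^*` is injective on torsion for `M = 3 N`. -/
theorem pullJZero_injective_three (N : ℕ) [NeZero N] {M : ℕ} [NeZero M] (hM : M = 3 * N)
    (h : N ∣ M) {n : ℕ} (hn : 0 < n) (x : JZero N) (hx : n • x = 0)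
    (h0 : pullJZero h x = 0) : x = 0 :=
  haveI : NeZero (3 : ℕ) := ⟨by norm_num⟩
  pullJZero_injective_of_torsion N 3 (transferCore_three N) hM h hn x hx h0

/-- the pull-back of a class with a Kummer generator. -/
theorem pullJZero_mk {N M : ℕ} [NeZero N] [NeZero M] (h : N ∣ M)
    (E : Divisor.degZero (K := Qb) (F := FBar N)) :
    haveI := hasPrincipalDivisors_bar M
    pullJZero h (Pic0.mk E) =
      Pic0.mk (degZeroPull (inclBar h) (inclBar_isIntegral h) (inclBar_fundId h) E) :=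
  rfl

variable {N₀ q ℓ : ℕ} [NeZero N₀] [NeZero q] [NeZero ℓ]

/-- **`α^*` commutes with the degeneracy push-forward `α_{q,*}`** (on torsion classes). -/
theorem pushAlpha_pullJZero (hq : q.Prime) (hqN : ¬ q ∣ N₀) (hqℓ : ¬ q ∣ ℓ)
    (h : N₀ * q ∣ N₀ * ℓ * q) (h₀ : N₀ ∣ N₀ * ℓ) {n : ℕ} (hn : n ≠ 0)
    (x : JZero (N₀ * q)) (hx : n • x = 0) :
    pushAlpha (N₀ * ℓ) q (pullJZero h x) = pullJZero h₀ (pushAlpha N₀ q x) := by
  haveI := hasPrincipalDivisors_bar (N₀ * ℓ * q)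
  haveI := hasPrincipalDivisors_bar (N₀ * ℓ)
  have hx' : (n : ℤ) • x = 0 := by rwa [natCast_zsmul]
  obtain ⟨E, f, hf, rfl, hE⟩ := exists_div_of_zsmul_eq_zero (n : ℤ) x hx'
  have hE' : IsRootDiv n f E := ⟨hf, hE⟩
  set hH := Fermat.Agent.HeckeInputs.hi_heckeInputsAlong_Qbar N₀ q with hHdef
  set hH' := Fermat.Agent.HeckeInputs.hi_heckeInputsAlong_Qbar (N₀ * ℓ) q with hHdef'
  rw [pullJZero_mk, pushAlpha_mk, pushAlpha_mk, pullJZero_mk]
  refine congrArg Pic0.mk
    (eq_of_isRootDiv hn (x := normAlong (heckeAlphaBar Qb (N₀ * ℓ) q) (inclBar h f)) ?_ ?_)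
  · exact IsRootDiv.push (heckeAlphaBar Qb (N₀ * ℓ) q) hH'.fst hH'.snd.snd.snd.fst
      hH'.snd.snd.snd.snd.2
      (isRootDiv_pull (inclBar h) (inclBar_isIntegral h) (inclBar_fundId h) hE')
  · rw [normAlong_inclBar hq hqN hqℓ h h₀ f]
    exact isRootDiv_pull (inclBar h₀) (inclBar_isIntegral h₀) (inclBar_fundId h₀)
      (IsRootDiv.push (heckeAlphaBar Qb N₀ q) hH.fst hH.snd.snd.snd.fst
        hH.snd.snd.snd.snd.2 hE')

/-- **`α^*` commutes with the Atkin–Lehner push-forward `w_{Q,*}`** (on torsion classes). -/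
theorem pushWAt_pullJZero (D D' : ALData) {M M' : ℕ} [NeZero M] [NeZero M']
    (hM : M = D.Q * D.R) (hM' : M' = D'.Q * D'.R) (h : M ∣ M') (hQ : D'.Q = D.Q)
    {c : ℕ} (hR : D'.R = D.R * c) {n : ℕ} (hn : n ≠ 0) (x : JZero M) (hx : n • x = 0) :
    pushWAt D' hM' (pullJZero h x) = pullJZero h (pushWAt D hM x) := by
  haveI := hasPrincipalDivisors_bar M'
  have hx' : (n : ℤ) • x = 0 := by rwa [natCast_zsmul]
  obtain ⟨E, f, hf, rfl, hE⟩ := exists_div_of_zsmul_eq_zero (n : ℤ) x hx'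
  have hE' : IsRootDiv n f E := ⟨hf, hE⟩
  obtain ⟨E₁, hE₁, hr₁⟩ := isRootDiv_pushWAt D hM hE'
  obtain ⟨E₂, hE₂, hr₂⟩ := isRootDiv_pushWAt D' hM'
    (isRootDiv_pull (inclBar h) (inclBar_isIntegral h) (inclBar_fundId h) hE')
  have hw : wAt D' hM' (inclBar h f) = inclBar h (wAt D hM f) := by
    apply Subtype.ext
    rw [coe_wAt_inclBar D D' hM hM' h hQ hR f, coe_inclBar]
  rw [pullJZero_mk, hE₂, hE₁, pullJZero_mk]
  refine congrArg Pic0.mk (eq_of_isRootDiv hn (x := inclBar h (wAt D hM f)) ?_ ?_)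
  · rw [← hw]
    exact hr₂
  · exact isRootDiv_pull (inclBar h) (inclBar_isIntegral h) (inclBar_fundId h) hr₁

/-- **`α^*` maps `q`-new torsion classes to `q`-new torsion classes**: if `α_{q,*} x = 0` and
`α_{q,*} (w_{q,*} x) = 0` at level `N₀ q`, the same holds for `α^* x` at level `N₀ ℓ q`. -/
theorem isNew_pullJZero (hq : q.Prime) (hqN : ¬ q ∣ N₀) (hqℓ : ¬ q ∣ ℓ)
    (D D' : ALData) (hM : N₀ * q = D.Q * D.R) (hM' : N₀ * ℓ * q = D'.Q * D'.R)
    (hQ : D'.Q = D.Q) (hR : D'.R = D.R * ℓ)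
    (h : N₀ * q ∣ N₀ * ℓ * q) {n : ℕ} (hn : n ≠ 0)
    (x : JZero (N₀ * q)) (hx : n • x = 0)
    (h1 : pushAlpha N₀ q x = 0) (h2 : pushAlpha N₀ q (pushWAt D hM x) = 0) :
    pushAlpha (N₀ * ℓ) q (pullJZero h x) = 0 ∧
      pushAlpha (N₀ * ℓ) q (pushWAt D' hM' (pullJZero h x)) = 0 := by
  have h₀ : N₀ ∣ N₀ * ℓ := Dvd.intro _ rfl
  have hxw : n • pushWAt D hM x = 0 := by
    rw [← map_nsmul, hx, map_zero]
  refine ⟨?_, ?_⟩
  · rw [pushAlpha_pullJZero hq hqN hqℓ h h₀ hn x hx, h1, map_zero]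
  · rw [pushWAt_pullJZero D D' hM hM' h hQ hR hn x hx,
      pushAlpha_pullJZero hq hqN hqℓ h h₀ hn _ hxw, h2, map_zero]

end Classes

end Fermat.Agent.BadRed.PullAux
end
end MergeWrap_Lib_BadRed_Bridge_PullAux
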